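/-
ALPHA-P2 (helper6): constant-rank linear algebra, part (C1).
A matrix `M` over a commutative ring `B` is `r`-regular if it has an invertible `r × r` minor and
all bordered `(r+1) × (r+1)` minors vanish.  Then `M = C * A⁻¹ * Rw` (rank factorisation), the
kernel and the range of `M` are direct summands with explicit complements, and the kernel commutes
with every base change.
-/
import Mathlib

set_option autoImplicit false
set_option linter.unusedSectionVars false

namespace Fermat.Agent.Alpha

open Matrix

section Defs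

variable {B : Type*} [CommRing B] {m n : Type*}

/-- `M` has an invertible `r × r` minor (rows `rows`, columns `cols`) and every bordered
`(r+1) × (r+1)` minor vanishes. -/
def AlpcRegularAt (M : Matrix m n B) (r : ℕ) (rows : Fin r → m) (cols : Fin r → n) : Prop :=
  IsUnit (M.submatrix rows cols).det ∧
    ∀ (i : m) (j : n),
      (M.submatrix (Sum.elim rows fun _ : Unit => i) (Sum.elim cols fun _ : Unit => j)).det = 0

/-- `M` is `r`-regular: it has an invertible `r × r` minor and every bordered minor vanishes. -/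
def AlpcRegular (M : Matrix m n B) (r : ℕ) : Prop :=
  ∃ (rows : Fin r → m) (cols : Fin r → n), AlpcRegularAt M r rows cols

theorem alpc_regularAt_map {B' : Type*} [CommRing B'] (φ : B →+* B') {M : Matrix m n B} {r : ℕ}
    {rows : Fin r → m} {cols : Fin r → n} (h : AlpcRegularAt M r rows cols) :
    AlpcRegularAt (M.map φ) r rows cols := by
  refine ⟨?_, fun i j => ?_⟩
  · have := h.1.map φ
    rw [RingHom.map_det, RingHom.mapMatrix_apply] at this
    rwa [submatrix_map]
  · have := congrArg φ (h.2 i j)
    rw [RingHom.map_det, RingHom.mapMatrix_apply, map_zero] at this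
    rwa [submatrix_map]

theorem alpc_regular_map {B' : Type*} [CommRing B'] (φ : B →+* B') {M : Matrix m n B} {r : ℕ}
    (h : AlpcRegular M r) : AlpcRegular (M.map φ) r := by
  obtain ⟨rows, cols, h⟩ := h
  exact ⟨rows, cols, alpc_regularAt_map φ h⟩

end Defs

section Factor

variable {B : Type*} [CommRing B] {m n : Type*} [Fintype m] [Fintype n] [DecidableEq m]
  [DecidableEq n]

/-- the chosen columns of `M` -/
def alpcC (M : Matrix m n B) {r : ℕ} (cols : Fin r → n) : Matrix m (Fin r) B :=
  M.submatrix id cols

/-- the chosen rows of `M` -/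
def alpcRw (M : Matrix m n B) {r : ℕ} (rows : Fin r → m) : Matrix (Fin r) n B :=
  M.submatrix rows id

/-- extension by zero along `cols` -/
def alpcE (B : Type*) [CommRing B] {n : Type*} [DecidableEq n] {r : ℕ} (cols : Fin r → n) :
    Matrix n (Fin r) B :=
  (1 : Matrix n n B).submatrix id cols

/-- restriction to `rows` -/
def alpcE' (B : Type*) [CommRing B] {m : Type*} [DecidableEq m] {r : ℕ} (rows : Fin r → m) :
    Matrix (Fin r) m B :=
  (1 : Matrix m m B).submatrix rows id

theorem alpc_M_mul_E (M : Matrix m n B) {r : ℕ} (cols : Fin r → n) :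
    M * alpcE B cols = alpcC M cols := by
  ext i k
  simp [alpcE, alpcC, Matrix.mul_apply, Matrix.one_apply]

theorem alpc_E'_mul_M (M : Matrix m n B) {r : ℕ} (rows : Fin r → m) :
    alpcE' B rows * M = alpcRw M rows := by
  ext k j
  simp [alpcE', alpcRw, Matrix.mul_apply, Matrix.one_apply]

theorem alpc_Rw_mul_E (M : Matrix m n B) {r : ℕ} (rows : Fin r → m) (cols : Fin r → n) :
    alpcRw M rows * alpcE B cols = M.submatrix rows cols := by
  ext i k
  simp [alpcE, alpcRw, Matrix.mul_apply, Matrix.one_apply]

theorem alpc_E'_mul_C (M : Matrix m n B) {r : ℕ} (rows : Fin r → m) (cols : Fin r → n) :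
    alpcE' B rows * alpcC M cols = M.submatrix rows cols := by
  ext k j
  simp [alpcE', alpcC, Matrix.mul_apply, Matrix.one_apply]

/-- **Rank factorisation** of an `r`-regular matrix. -/
theorem alpc_factor {M : Matrix m n B} {r : ℕ} {rows : Fin r → m} {cols : Fin r → n}
    (h : AlpcRegularAt M r rows cols) :
    M = alpcC M cols * (M.submatrix rows cols)⁻¹ * alpcRw M rows := by
  classical
  set A := M.submatrix rows cols with hA
  have hAu : IsUnit A.det := h.1
  have : Invertible A := (Matrix.isUnit_iff_isUnit_det A).mpr hAu |>.invertible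
  ext i j
  have h0 := h.2 i j
  set N := M.submatrix (Sum.elim rows fun _ : Unit => i) (Sum.elim cols fun _ : Unit => j)
    with hN
  let b : Matrix (Fin r) Unit B := Matrix.of fun k _ => M (rows k) j
  let c : Matrix Unit (Fin r) B := Matrix.of fun _ l => M i (cols l)
  let d : Matrix Unit Unit B := Matrix.of fun _ _ => M i j
  have hNb : N = fromBlocks A b c d := by
    ext (a | a) (b | b) <;> rfl
  rw [hNb, det_fromBlocks₁₁] at h0
  have h1 := (hAu.mul_right_eq_zero).mp h0
  rw [det_unique, Matrix.sub_apply, sub_eq_zero] at h1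
  have h2 : M i j = (c * ⅟A * b) () () := h1
  rw [h2, ← Matrix.invOf_eq_nonsing_inv]
  simp only [Matrix.mul_apply, alpcC, alpcRw, submatrix_apply, id_eq]
  rfl

end Factor

section Structure

variable {B : Type*} [CommRing B] {m n : Type*} [Fintype m] [Fintype n] [DecidableEq m]
  [DecidableEq n]
variable {M : Matrix m n B} {r : ℕ} {rows : Fin r → m} {cols : Fin r → n}

theorem alpc_inv_mul_sub (h : AlpcRegularAt M r rows cols) :
    (M.submatrix rows cols)⁻¹ * M.submatrix rows cols = 1 :=
  Matrix.nonsing_inv_mul _ h.1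

theorem alpc_sub_mul_inv (h : AlpcRegularAt M r rows cols) :
    M.submatrix rows cols * (M.submatrix rows cols)⁻¹ = 1 :=
  Matrix.mul_nonsing_inv _ h.1

/-- `ker M = ker (chosen rows of M)` -/
theorem alpc_ker_eq (h : AlpcRegularAt M r rows cols) :
    LinearMap.ker M.mulVecLin = LinearMap.ker (alpcRw M rows).mulVecLin := by
  ext v
  simp only [LinearMap.mem_ker, Matrix.mulVecLin_apply]
  constructor
  · intro hv
    rw [← alpc_E'_mul_M, ← Matrix.mulVec_mulVec, hv, Matrix.mulVec_zero]
  · intro hv
    rw [alpc_factor h, ← Matrix.mulVec_mulVec, hv, Matrix.mulVec_zero]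

/-- `range M = range (chosen columns of M)` -/
theorem alpc_range_eq (h : AlpcRegularAt M r rows cols) :
    LinearMap.range M.mulVecLin = LinearMap.range (alpcC M cols).mulVecLin := by
  ext w
  simp only [LinearMap.mem_range, Matrix.mulVecLin_apply]
  constructor
  · rintro ⟨v, rfl⟩
    refine ⟨((M.submatrix rows cols)⁻¹ * alpcRw M rows).mulVec v, ?_⟩
    conv_rhs => rw [alpc_factor h]
    rw [Matrix.mulVec_mulVec, Matrix.mul_assoc]
  · rintro ⟨v, rfl⟩
    exact ⟨(alpcE B cols).mulVec v, by rw [Matrix.mulVec_mulVec, alpc_M_mul_E]⟩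

/-- the projection onto the kernel of `M` along `range E` -/
noncomputable def alpcKerProj (M : Matrix m n B) {r : ℕ} (rows : Fin r → m) (cols : Fin r → n) : Matrix n n B :=
  1 - alpcE B cols * (M.submatrix rows cols)⁻¹ * alpcRw M rows

/-- the projection onto the range of `M` along `ker E'` -/
noncomputable def alpcRangeProj (M : Matrix m n B) {r : ℕ} (rows : Fin r → m) (cols : Fin r → n) :
    Matrix m m B :=
  alpcC M cols * (M.submatrix rows cols)⁻¹ * alpcE' B rows

theorem alpc_M_mul_kerProj (h : AlpcRegularAt M r rows cols) :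
    M * alpcKerProj M rows cols = 0 := by
  have h1 : alpcRw M rows * alpcKerProj M rows cols = 0 := by
    rw [alpcKerProj, Matrix.mul_sub, Matrix.mul_one, ← Matrix.mul_assoc, ← Matrix.mul_assoc,
      alpc_Rw_mul_E, alpc_sub_mul_inv h, Matrix.one_mul, sub_self]
  calc M * alpcKerProj M rows cols
      = (alpcC M cols * (M.submatrix rows cols)⁻¹ * alpcRw M rows) * alpcKerProj M rows cols := by
        rw [← alpc_factor h]
    _ = 0 := by rw [Matrix.mul_assoc, h1, Matrix.mul_zero]

theorem alpc_kerProj_of_mem (h : AlpcRegularAt M r rows cols) {v : n → B}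
    (hv : M.mulVec v = 0) : (alpcKerProj M rows cols).mulVec v = v := by
  have hv' : (alpcRw M rows).mulVec v = 0 := by
    have : v ∈ LinearMap.ker M.mulVecLin := hv
    rw [alpc_ker_eq h] at this
    exact this
  rw [alpcKerProj, Matrix.sub_mulVec, Matrix.one_mulVec, ← Matrix.mulVec_mulVec, hv',
    Matrix.mulVec_zero, sub_zero]

/-- the kernel is the range of the projection `alpcKerProj` (so it is generated by its columns) -/
theorem alpc_ker_eq_range_kerProj (h : AlpcRegularAt M r rows cols) :
    LinearMap.ker M.mulVecLin = LinearMap.range (alpcKerProj M rows cols).mulVecLin := by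
  ext v
  simp only [LinearMap.mem_ker, LinearMap.mem_range, Matrix.mulVecLin_apply]
  constructor
  · intro hv
    exact ⟨v, alpc_kerProj_of_mem h hv⟩
  · rintro ⟨w, rfl⟩
    rw [Matrix.mulVec_mulVec, alpc_M_mul_kerProj h, Matrix.zero_mulVec]

/-- **the kernel of a regular matrix is a direct summand** -/
theorem alpc_ker_isCompl (h : AlpcRegularAt M r rows cols) :
    IsCompl (LinearMap.ker M.mulVecLin) (LinearMap.range (alpcE B cols).mulVecLin) := by
  constructor
  · rw [Submodule.disjoint_def]
    rintro v hv ⟨w, rfl⟩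
    rw [alpc_ker_eq h] at hv
    simp only [LinearMap.mem_ker, Matrix.mulVecLin_apply, Matrix.mulVec_mulVec,
      alpc_Rw_mul_E] at hv
    have : w = 0 := by
      have := congrArg ((M.submatrix rows cols)⁻¹).mulVec hv
      rwa [Matrix.mulVec_mulVec, alpc_inv_mul_sub h, Matrix.one_mulVec, Matrix.mulVec_zero] at this
    simp [this]
  · rw [codisjoint_iff, eq_top_iff]
    intro v _
    have hdec : v = (alpcKerProj M rows cols).mulVec v +
        (alpcE B cols).mulVec (((M.submatrix rows cols)⁻¹ * alpcRw M rows).mulVec v) := by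
      rw [alpcKerProj, Matrix.sub_mulVec, Matrix.one_mulVec, Matrix.mulVec_mulVec,
        ← Matrix.mul_assoc]
      abel
    rw [hdec]
    refine Submodule.add_mem_sup ?_ ⟨_, rfl⟩
    rw [alpc_ker_eq_range_kerProj h]
    exact ⟨v, rfl⟩

theorem alpc_rangeProj_mul_M (h : AlpcRegularAt M r rows cols) :
    alpcRangeProj M rows cols * M = M := by
  calc alpcRangeProj M rows cols * M
      = alpcC M cols * (M.submatrix rows cols)⁻¹ * alpcRw M rows := by
        rw [alpcRangeProj, Matrix.mul_assoc _ (alpcE' B rows) M, alpc_E'_mul_M]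
    _ = M := (alpc_factor h).symm

theorem alpc_range_eq_range_rangeProj (h : AlpcRegularAt M r rows cols) :
    LinearMap.range M.mulVecLin = LinearMap.range (alpcRangeProj M rows cols).mulVecLin := by
  ext w
  simp only [LinearMap.mem_range, Matrix.mulVecLin_apply]
  constructor
  · rintro ⟨v, rfl⟩
    exact ⟨M.mulVec v, by rw [Matrix.mulVec_mulVec, alpc_rangeProj_mul_M h]⟩
  · rintro ⟨v, rfl⟩
    have : (alpcRangeProj M rows cols).mulVec v ∈ LinearMap.range (alpcC M cols).mulVecLin := by
      refine ⟨((M.submatrix rows cols)⁻¹ * alpcE' B rows).mulVec v, ?_⟩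
      rw [Matrix.mulVecLin_apply, Matrix.mulVec_mulVec, alpcRangeProj, Matrix.mul_assoc]
    rw [← alpc_range_eq h] at this
    exact this

/-- **the range of a regular matrix is a direct summand** -/
theorem alpc_range_isCompl (h : AlpcRegularAt M r rows cols) :
    IsCompl (LinearMap.range M.mulVecLin) (LinearMap.ker (alpcE' B rows).mulVecLin) := by
  constructor
  · rw [Submodule.disjoint_def]
    intro w hw hw'
    rw [alpc_range_eq h] at hw
    obtain ⟨u, rfl⟩ := hw
    simp only [LinearMap.mem_ker, Matrix.mulVecLin_apply, Matrix.mulVec_mulVec,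
      alpc_E'_mul_C] at hw'
    have : u = 0 := by
      have := congrArg ((M.submatrix rows cols)⁻¹).mulVec hw'
      rwa [Matrix.mulVec_mulVec, alpc_inv_mul_sub h, Matrix.one_mulVec, Matrix.mulVec_zero] at this
    simp [this]
  · rw [codisjoint_iff, eq_top_iff]
    intro w _
    have hdec : w = (alpcRangeProj M rows cols).mulVec w +
        (w - (alpcRangeProj M rows cols).mulVec w) := by abel
    rw [hdec]
    refine Submodule.add_mem_sup ?_ ?_
    · rw [alpc_range_eq_range_rangeProj h]
      exact ⟨w, rfl⟩
    · simp only [LinearMap.mem_ker, Matrix.mulVecLin_apply, Matrix.mulVec_sub,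
        Matrix.mulVec_mulVec]
      rw [alpcRangeProj, ← Matrix.mul_assoc, ← Matrix.mul_assoc, alpc_E'_mul_C,
        alpc_sub_mul_inv h, Matrix.one_mul, sub_self]

/-- the chosen columns are linearly independent: `C` is injective -/
theorem alpc_C_injective (h : AlpcRegularAt M r rows cols) :
    Function.Injective (alpcC M cols).mulVecLin := by
  intro u u' huu
  have := congrArg (((M.submatrix rows cols)⁻¹ * alpcE' B rows).mulVec) huu
  simpa only [Matrix.mulVecLin_apply, Matrix.mulVec_mulVec, Matrix.mul_assoc, alpc_E'_mul_C,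
    alpc_inv_mul_sub h, Matrix.one_mulVec] using this

/-- the range of a regular matrix is free of rank `r` -/
noncomputable def alpcRangeEquiv (h : AlpcRegularAt M r rows cols) :
    (Fin r → B) ≃ₗ[B] LinearMap.range M.mulVecLin :=
  (LinearEquiv.ofInjective _ (alpc_C_injective h)).trans
    (LinearEquiv.ofEq _ _ (alpc_range_eq h).symm)

theorem alpcRangeEquiv_apply (h : AlpcRegularAt M r rows cols) (u : Fin r → B) :
    (alpcRangeEquiv h u : m → B) = (alpcC M cols).mulVec u := rfl

end Structure

section BaseChange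

variable {B : Type*} [CommRing B] {m n : Type*} [Fintype m] [Fintype n] [DecidableEq m]
  [DecidableEq n]
variable {M : Matrix m n B} {r : ℕ} {rows : Fin r → m} {cols : Fin r → n}
variable {B' : Type*} [CommRing B'] (φ : B →+* B')

theorem alpc_inv_map (h : AlpcRegularAt M r rows cols) :
    ((M.submatrix rows cols)⁻¹).map φ = ((M.map φ).submatrix rows cols)⁻¹ := by
  symm
  apply Matrix.inv_eq_right_inv
  rw [submatrix_map, ← Matrix.map_mul, alpc_sub_mul_inv h, Matrix.map_one _ (map_zero φ) (map_one φ)]

theorem alpc_E_map : (alpcE B cols).map φ = alpcE B' cols := by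
  ext j k
  simp [alpcE, Matrix.one_apply, apply_ite φ]

theorem alpc_E'_map : (alpcE' B rows).map φ = alpcE' B' rows := by
  ext j k
  simp [alpcE', Matrix.one_apply, apply_ite φ]

theorem alpc_kerProj_map (h : AlpcRegularAt M r rows cols) :
    (alpcKerProj M rows cols).map φ = alpcKerProj (M.map φ) rows cols := by
  rw [alpcKerProj, alpcKerProj, Matrix.map_sub (f := φ) (map_sub φ),
    Matrix.map_one _ (map_zero φ) (map_one φ), Matrix.map_mul, Matrix.map_mul, alpc_inv_map φ h,
    alpc_E_map]
  rfl

theorem alpc_rangeProj_map (h : AlpcRegularAt M r rows cols) :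
    (alpcRangeProj M rows cols).map φ = alpcRangeProj (M.map φ) rows cols := by
  rw [alpcRangeProj, alpcRangeProj, Matrix.map_mul, Matrix.map_mul, alpc_inv_map φ h,
    alpc_E'_map]
  rfl

theorem alpc_comp_mem_ker {v : n → B} (hv : v ∈ LinearMap.ker M.mulVecLin) :
    (φ ∘ v) ∈ LinearMap.ker (M.map φ).mulVecLin := by
  rw [LinearMap.mem_ker, Matrix.mulVecLin_apply] at hv ⊢
  ext i
  rw [← RingHom.map_mulVec, hv]
  simp

theorem alpc_comp_mem_range {w : m → B} (hw : w ∈ LinearMap.range M.mulVecLin) :
    (φ ∘ w) ∈ LinearMap.range (M.map φ).mulVecLin := by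
  obtain ⟨v, rfl⟩ := hw
  refine ⟨φ ∘ v, ?_⟩
  ext i
  simp only [Matrix.mulVecLin_apply, Function.comp_apply]
  rw [RingHom.map_mulVec]

/-- **The kernel of a regular matrix commutes with every base change.** -/
theorem alpc_ker_map (h : AlpcRegularAt M r rows cols) :
    LinearMap.ker (M.map φ).mulVecLin =
      Submodule.span B' ((fun v : n → B => φ ∘ v) '' (LinearMap.ker M.mulVecLin : Set (n → B))) := by
  apply le_antisymm
  · intro w hw
    have h' := alpc_regularAt_map φ h
    rw [LinearMap.mem_ker, Matrix.mulVecLin_apply] at hw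
    have hw' := alpc_kerProj_of_mem h' hw
    rw [← alpc_kerProj_map φ h] at hw'
    rw [← hw']
    -- `P'.mulVec w = ∑ j, w j • (column j of P')`
    have hcol : ((alpcKerProj M rows cols).map φ).mulVec w =
        ∑ j, w j • (φ ∘ ((alpcKerProj M rows cols).mulVec (Pi.single j 1))) := by
      ext i
      simp only [Matrix.mulVec, dotProduct, Matrix.map_apply, Finset.sum_apply, Pi.smul_apply,
        Function.comp_apply, smul_eq_mul]
      refine Finset.sum_congr rfl fun j _ => ?_
      rw [Finset.sum_eq_single j]
      · simp [mul_comm]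
      · intro j' _ hj'
        simp [hj']
      · intro hj
        exact absurd (Finset.mem_univ j) hj
    rw [hcol]
    refine Submodule.sum_mem _ fun j _ => Submodule.smul_mem _ _ (Submodule.subset_span ?_)
    refine ⟨(alpcKerProj M rows cols).mulVec (Pi.single j 1), ?_, rfl⟩
    rw [SetLike.mem_coe, alpc_ker_eq_range_kerProj h]
    exact ⟨_, rfl⟩
  · rw [Submodule.span_le]
    rintro _ ⟨v, hv, rfl⟩
    exact alpc_comp_mem_ker φ hv

/-- the range of any matrix commutes with base change (right exactness; no regularity needed) -/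
theorem alpc_range_map (M : Matrix m n B) :
    LinearMap.range (M.map φ).mulVecLin =
      Submodule.span B' ((fun w : m → B => φ ∘ w) '' (LinearMap.range M.mulVecLin : Set (m → B))) := by
  apply le_antisymm
  · rw [Matrix.range_mulVecLin, Submodule.span_le]
    rintro _ ⟨j, rfl⟩
    refine Submodule.subset_span ⟨M.col j, ?_, ?_⟩
    · rw [SetLike.mem_coe, Matrix.range_mulVecLin]
      exact Submodule.subset_span ⟨j, rfl⟩
    · ext i
      simp [Matrix.col_apply]
  · rw [Submodule.span_le]
    rintro _ ⟨w, hw, rfl⟩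
    exact alpc_comp_mem_range φ hw

/-- **The range of a regular matrix is saturated** with respect to any jointly injective family
of specialisations. -/
theorem alpc_range_saturated {ι : Type*} {K : ι → Type*} [∀ z, CommRing (K z)]
    (ψ : ∀ z, B →+* K z) (hinj : ∀ b : B, (∀ z, ψ z b = 0) → b = 0)
    (h : AlpcRegularAt M r rows cols) {u : m → B}
    (hu : ∀ z, (ψ z ∘ u) ∈ LinearMap.range (M.map (ψ z)).mulVecLin) :
    u ∈ LinearMap.range M.mulVecLin := by
  have hQ : (alpcRangeProj M rows cols).mulVec u = u := by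
    ext i
    rw [← sub_eq_zero]
    apply hinj
    intro z
    rw [map_sub, sub_eq_zero, RingHom.map_mulVec, alpc_rangeProj_map (ψ z) h]
    obtain ⟨v, hv⟩ := hu z
    rw [← hv, Matrix.mulVecLin_apply, Matrix.mulVec_mulVec,
      alpc_rangeProj_mul_M (alpc_regularAt_map (ψ z) h)]
    rw [← Matrix.mulVecLin_apply, hv]
    rfl
  rw [alpc_range_eq_range_rangeProj h]
  exact ⟨u, hQ⟩

/-- the kernel is saturated (no regularity needed) -/
theorem alpc_ker_saturated {ι : Type*} {K : ι → Type*} [∀ z, CommRing (K z)]
    (ψ : ∀ z, B →+* K z) (hinj : ∀ b : B, (∀ z, ψ z b = 0) → b = 0)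
    (M : Matrix m n B) {v : n → B}
    (hv : ∀ z, (ψ z ∘ v) ∈ LinearMap.ker (M.map (ψ z)).mulVecLin) :
    v ∈ LinearMap.ker M.mulVecLin := by
  rw [LinearMap.mem_ker, Matrix.mulVecLin_apply]
  ext i
  apply hinj
  intro z
  have := hv z
  rw [LinearMap.mem_ker, Matrix.mulVecLin_apply] at this
  rw [RingHom.map_mulVec, this]
  simp

end BaseChange

end Fermat.Agent.Alpha
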