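/-
ALPHA-P2 (helper6): constant-rank linear algebra, part (C2).
Over a LOCAL ring `B` with a jointly injective family of specialisations `ψ z : B →+* K z` to
fields: a matrix whose specialisations all have rank `≤ r` and whose residue matrix has rank `≥ r`
is `r`-regular (so its kernel/range are direct summands commuting with base change, by (C1)).
-/
import Fermat.Agent.Lib.Alpha.CRank.Minor

set_option autoImplicit false
set_option linter.unusedSectionVars false

namespace Fermat.Agent.Alpha

open Matrix

section Field

variable {k : Type*} [Field k] {m n : Type*} [Fintype m] [Fintype n] [DecidableEq m]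
  [DecidableEq n]

/-- over a field, a matrix of rank `≥ r` has `r` linearly independent columns -/
theorem alpc_exists_cols_of_rank (M : Matrix m n k) {r : ℕ} (hr : r ≤ M.rank) :
    ∃ cols : Fin r → n, LinearIndependent k (fun i => M.col (cols i)) := by
  classical
  obtain ⟨κ, a, ha, hsp, hli⟩ := exists_linearIndependent' k M.col
  have : Finite κ := Finite.of_injective a ha
  have : Fintype κ := Fintype.ofFinite κ
  have hcard : Fintype.card κ = M.rank := by
    rw [Matrix.rank_eq_finrank_span_cols, ← hsp, finrank_span_eq_card hli]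
  have hle : Fintype.card (Fin r) ≤ Fintype.card κ := by
    rw [Fintype.card_fin, hcard]; exact hr
  obtain ⟨e⟩ := Function.Embedding.nonempty_of_card_le hle
  refine ⟨a ∘ e, ?_⟩
  exact hli.comp e e.injective

/-- over a field, a matrix of rank `≥ r` has a nonvanishing `r × r` minor -/
theorem alpc_exists_minor_of_rank (M : Matrix m n k) {r : ℕ} (hr : r ≤ M.rank) :
    ∃ (rows : Fin r → m) (cols : Fin r → n), (M.submatrix rows cols).det ≠ 0 := by
  classical
  obtain ⟨cols, hcols⟩ := alpc_exists_cols_of_rank M hr
  set C : Matrix m (Fin r) k := M.submatrix id cols with hC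
  have hCT : LinearIndependent k Cᵀ.row := hcols
  have hrk : r ≤ Cᵀ.rank := by
    rw [hCT.rank_matrix, Fintype.card_fin]
  obtain ⟨rows, hrows⟩ := alpc_exists_cols_of_rank Cᵀ hrk
  refine ⟨rows, cols, ?_⟩
  have hS : LinearIndependent k (M.submatrix rows cols).row := hrows
  have := Matrix.linearIndependent_rows_iff_isUnit.mp hS
  exact ((Matrix.isUnit_iff_isUnit_det _).mp this).ne_zero

/-- over a field (or domain), a square submatrix of size exceeding the rank has vanishing
determinant -/
theorem alpc_det_eq_zero_of_rank_lt {K : Type*} [Field K] (M : Matrix m n K) {p : Type*}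
    [Fintype p] [DecidableEq p] (f : p → m) (g : p → n) (h : M.rank < Fintype.card p) :
    (M.submatrix f g).det = 0 := by
  by_contra hne
  have h1 := Matrix.rank_of_det_ne_zero hne
  have h2 := Matrix.rank_submatrix_le M f g
  omega

end Field

section Local

variable {B : Type*} [CommRing B] {m n : Type*} [Fintype m] [Fintype n]
  [DecidableEq m] [DecidableEq n]

/-- **Recognition of regular matrices** by ranks: generic ranks `≤ r` (at a jointly injective
family of specialisations `ψ z` to fields) and special rank `≥ r` at a "local" specialisation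
`ρ : B →+* k` (local: `ρ b ≠ 0 → IsUnit b`; e.g. the residue map of a local ring). -/
theorem alpc_regular_of_rank' {ι : Type*} {K : ι → Type*} [∀ z, Field (K z)]
    (ψ : ∀ z, B →+* K z) (hinj : ∀ b : B, (∀ z, ψ z b = 0) → b = 0)
    {k : Type*} [Field k] (ρ : B →+* k) (hρ : ∀ b : B, ρ b ≠ 0 → IsUnit b)
    (M : Matrix m n B) {r : ℕ} (hz : ∀ z, (M.map (ψ z)).rank ≤ r)
    (hres : r ≤ (M.map ρ).rank) : AlpcRegular M r := by
  obtain ⟨rows, cols, hdet⟩ := alpc_exists_minor_of_rank _ hres
  refine ⟨rows, cols, ?_, fun i j => ?_⟩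
  · rw [submatrix_map, ← RingHom.mapMatrix_apply, ← RingHom.map_det] at hdet
    exact hρ _ hdet
  · apply hinj
    intro z
    rw [RingHom.map_det, RingHom.mapMatrix_apply, ← submatrix_map]
    apply alpc_det_eq_zero_of_rank_lt
    have := hz z
    simp only [Fintype.card_sum, Fintype.card_fin, Fintype.card_unit]
    omega

/-- the local-ring version of `alpc_regular_of_rank'` -/
theorem alpc_regular_of_rank [IsLocalRing B] {ι : Type*} {K : ι → Type*} [∀ z, Field (K z)]
    (ψ : ∀ z, B →+* K z) (hinj : ∀ b : B, (∀ z, ψ z b = 0) → b = 0)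
    (M : Matrix m n B) {r : ℕ} (hz : ∀ z, (M.map (ψ z)).rank ≤ r)
    (hres : r ≤ (M.map (IsLocalRing.residue B)).rank) : AlpcRegular M r := by
  refine alpc_regular_of_rank' ψ hinj (IsLocalRing.residue B) (fun b hb => ?_) M hz hres
  by_contra hnu
  exact hb ((IsLocalRing.residue_eq_zero_iff _).mpr ((IsLocalRing.mem_maximalIdeal _).mpr hnu))

/-- for a regular matrix, every specialisation to a field has rank exactly `r` -/
theorem alpc_rank_map_eq {M : Matrix m n B} {r : ℕ}
    (h : AlpcRegular M r) {K : Type*} [Field K] (φ : B →+* K) : (M.map φ).rank = r := by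
  obtain ⟨rows, cols, h⟩ := h
  have h' := alpc_regularAt_map φ h
  rw [Matrix.rank, ← LinearEquiv.finrank_eq (alpcRangeEquiv h'), Module.finrank_fin_fun]

/-- rank–nullity for matrices over a field, in the form used by the consumers -/
theorem alpc_rank_add_finrank_ker {K : Type*} [Field K] (M : Matrix m n K) :
    M.rank + Module.finrank K (LinearMap.ker M.mulVecLin) = Fintype.card n := by
  have := LinearMap.finrank_range_add_finrank_ker M.mulVecLin
  rw [Module.finrank_pi] at this
  exact this

/-- kernel form of `alpc_regular_of_rank'`: generic kernels of dimension `≥ d`, special kernel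
of dimension `≤ d`. -/
theorem alpc_regular_of_finrank_ker {ι : Type*} {K : ι → Type*} [∀ z, Field (K z)]
    (ψ : ∀ z, B →+* K z) (hinj : ∀ b : B, (∀ z, ψ z b = 0) → b = 0)
    {k : Type*} [Field k] (ρ : B →+* k) (hρ : ∀ b : B, ρ b ≠ 0 → IsUnit b)
    (M : Matrix m n B) {d : ℕ}
    (hz : ∀ z, d ≤ Module.finrank (K z) (LinearMap.ker (M.map (ψ z)).mulVecLin))
    (hres : Module.finrank k (LinearMap.ker (M.map ρ).mulVecLin) ≤ d) :
    AlpcRegular M (Fintype.card n - d) := by
  refine alpc_regular_of_rank' ψ hinj ρ hρ M (fun z => ?_) ?_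
  · have := alpc_rank_add_finrank_ker (M.map (ψ z))
    have := hz z
    omega
  · have := alpc_rank_add_finrank_ker (M.map ρ)
    omega

/-- **Nakayama in coordinates**: a submodule of `n → B` whose image under a local specialisation
`ρ` spans `n → k` is everything. -/
theorem alpc_eq_top_of_span_map_eq_top {k : Type*} [Field k] (ρ : B →+* k)
    (hρ : ∀ b : B, ρ b ≠ 0 → IsUnit b) (U : Submodule B (n → B))
    (hU : Submodule.span k ((fun v : n → B => ρ ∘ v) '' (U : Set (n → B))) = ⊤) : U = ⊤ := by
  classical
  obtain ⟨b, hbS, hbsp, hbli⟩ := exists_linearIndependent k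
    ((fun v : n → B => ρ ∘ v) '' (U : Set (n → B)))
  rw [hU] at hbsp
  -- `b` is a basis of `n → k`
  let bas : Module.Basis b k (n → k) := Module.Basis.mk hbli (by rw [Subtype.range_coe]; exact hbsp.ge)
  have : Finite b := Module.Finite.finite_basis bas
  have : Fintype b := Fintype.ofFinite b
  have hcard : Fintype.card b = Fintype.card n := by
    rw [← Module.finrank_eq_card_basis bas, Module.finrank_pi]
  let e : n ≃ b := Fintype.equivOfCardEq hcard.symm
  choose u hu hub using fun x : b => hbS x.2
  -- the matrix with columns `u (e j)`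
  let T : Matrix n n B := Matrix.of fun i j => u (e j) i
  have hTcol : ∀ j, (T.map ρ).col j = ((e j : b) : n → k) := by
    intro j
    ext i
    simp only [Matrix.col_apply, Matrix.map_apply, T, Matrix.of_apply]
    rw [← hub (e j)]
    rfl
  have hli : LinearIndependent k (T.map ρ).col := by
    have h1 : (T.map ρ).col = (fun x : b => (x : n → k)) ∘ e := by
      funext j; exact hTcol j
    rw [h1]
    exact hbli.comp e e.injective
  have hunit : IsUnit (T.map ρ) := Matrix.linearIndependent_cols_iff_isUnit.mp hli
  have hdet : ρ T.det ≠ 0 := by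
    rw [RingHom.map_det, RingHom.mapMatrix_apply]
    exact ((Matrix.isUnit_iff_isUnit_det _).mp hunit).ne_zero
  have hTu : IsUnit T.det := hρ _ hdet
  rw [eq_top_iff]
  intro v _
  have hv : v = T.mulVec (T⁻¹.mulVec v) := by
    rw [Matrix.mulVec_mulVec, Matrix.mul_nonsing_inv _ hTu, Matrix.one_mulVec]
  have hsum : ∀ w : n → B, T.mulVec w = ∑ j, w j • u (e j) := by
    intro w
    ext i
    simp [Matrix.mulVec, dotProduct, T, mul_comm]
  rw [hv, hsum]
  exact Submodule.sum_mem _ fun j _ => Submodule.smul_mem _ _ (hu (e j))

end Local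

end Fermat.Agent.Alpha
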