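/-
ALPHA-P2 (helper6): constant-rank linear algebra, additions requested by the ALPHA brief:
* explicit generators/basis of the kernel of a regular matrix, compatible with base change and
  nonzero in every fibre (`alpcKerGen`, `alpc_ker_eq_span_kerGen`, `alpc_kerGen_map`,
  `alpc_kerGen_apply_self`);
* "Nakayama for a sum" (`alpc_exists_decomp`) and uniqueness of the decomposition
  (`alpc_decomp_unique`).
-/
import Fermat.Agent.Lib.Alpha.CRank.Local

set_option autoImplicit false
set_option linter.unusedSectionVars false

namespace Fermat.Agent.Alpha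

open Matrix

section KerGen

variable {B : Type*} [CommRing B] {m n : Type*} [Fintype m] [Fintype n] [DecidableEq m]
  [DecidableEq n]
variable {M : Matrix m n B} {r : ℕ} {rows : Fin r → m} {cols : Fin r → n}

theorem alpc_kerProj_mul_E (h : AlpcRegularAt M r rows cols) :
    alpcKerProj M rows cols * alpcE B cols = 0 := by
  rw [alpcKerProj, Matrix.sub_mul, Matrix.one_mul, Matrix.mul_assoc, alpc_Rw_mul_E,
    Matrix.mul_assoc, alpc_inv_mul_sub h, Matrix.mul_one, sub_self]

/-- rows of `E` outside `cols` vanish -/
theorem alpc_E_apply_of_notMem {j : n} (hj : j ∉ Set.range cols) (k : Fin r) :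
    alpcE B cols j k = 0 := by
  simp only [alpcE, submatrix_apply, id_eq, Matrix.one_apply]
  rw [if_neg]
  rintro rfl
  exact hj ⟨k, rfl⟩

/-- the rows of the kernel projection outside `cols` are the rows of the identity -/
theorem alpc_kerProj_apply_of_notMem {j : n} (hj : j ∉ Set.range cols) (j' : n) :
    alpcKerProj M rows cols j j' = (1 : Matrix n n B) j j' := by
  rw [alpcKerProj, Matrix.sub_apply, Matrix.mul_assoc, Matrix.mul_apply]
  simp [alpc_E_apply_of_notMem hj]

/-- the `j`-th generator of the kernel: the `j`-th column of the kernel projection -/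
noncomputable def alpcKerGen (M : Matrix m n B) {r : ℕ} (rows : Fin r → m) (cols : Fin r → n)
    (j : n) : n → B :=
  (alpcKerProj M rows cols).mulVec (Pi.single j 1)

theorem alpcKerGen_apply (j j' : n) :
    alpcKerGen M rows cols j j' = alpcKerProj M rows cols j' j := by
  simp [alpcKerGen, Matrix.mulVec, dotProduct, Pi.single_apply]

theorem alpc_kerGen_mem (h : AlpcRegularAt M r rows cols) (j : n) :
    alpcKerGen M rows cols j ∈ LinearMap.ker M.mulVecLin := by
  rw [alpc_ker_eq_range_kerProj h]
  exact ⟨_, rfl⟩

/-- the generators indexed by `cols` vanish -/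
theorem alpc_kerGen_cols (h : AlpcRegularAt M r rows cols) (k : Fin r) :
    alpcKerGen M rows cols (cols k) = 0 := by
  have h1 := alpc_kerProj_mul_E h
  funext j'
  rw [alpcKerGen_apply]
  have := congrFun (congrFun h1 j') k
  simpa [Matrix.mul_apply, alpcE, Matrix.one_apply] using this

/-- outside `cols`, the generator `κ_j` has `j'`-coordinate `δ_{j j'}` for `j' ∉ cols` -/
theorem alpc_kerGen_apply_of_notMem {j' : n} (hj' : j' ∉ Set.range cols) (j : n) :
    alpcKerGen M rows cols j j' = if j' = j then 1 else 0 := by
  rw [alpcKerGen_apply, alpc_kerProj_apply_of_notMem hj', Matrix.one_apply]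

theorem alpc_kerGen_apply_self {j : n} (hj : j ∉ Set.range cols) :
    alpcKerGen M rows cols j j = 1 := by
  rw [alpc_kerGen_apply_of_notMem hj, if_pos rfl]

/-- the generators are compatible with base change -/
theorem alpc_kerGen_map {B' : Type*} [CommRing B'] (φ : B →+* B')
    (h : AlpcRegularAt M r rows cols) (j : n) :
    φ ∘ alpcKerGen M rows cols j = alpcKerGen (M.map φ) rows cols j := by
  funext j'
  rw [Function.comp_apply, alpcKerGen_apply, alpcKerGen_apply, ← alpc_kerProj_map φ h,
    Matrix.map_apply]

/-- in every nontrivial fibre the generators outside `cols` are nonzero -/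
theorem alpc_kerGen_map_ne_zero {B' : Type*} [CommRing B'] [Nontrivial B'] (φ : B →+* B')
    {j : n} (hj : j ∉ Set.range cols) : φ ∘ alpcKerGen M rows cols j ≠ 0 := by
  intro h0
  have := congrFun h0 j
  rw [Function.comp_apply, alpc_kerGen_apply_self hj, map_one] at this
  exact one_ne_zero this

/-- **the kernel of a regular matrix is spanned by the generators outside `cols`** -/
theorem alpc_ker_eq_span_kerGen (h : AlpcRegularAt M r rows cols) :
    LinearMap.ker M.mulVecLin =
      Submodule.span B (Set.range fun j : {j : n // j ∉ Set.range cols} =>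
        alpcKerGen M rows cols j.1) := by
  apply le_antisymm
  · intro v hv
    rw [LinearMap.mem_ker, Matrix.mulVecLin_apply] at hv
    have hv' := alpc_kerProj_of_mem h hv
    have hsum : (alpcKerProj M rows cols).mulVec v = ∑ j, v j • alpcKerGen M rows cols j := by
      funext j'
      simp only [Matrix.mulVec, dotProduct, Finset.sum_apply, Pi.smul_apply, smul_eq_mul,
        alpcKerGen_apply]
      exact Finset.sum_congr rfl fun j _ => mul_comm _ _
    rw [← hv', hsum]
    refine Submodule.sum_mem _ fun j _ => ?_
    by_cases hj : j ∈ Set.range cols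
    · obtain ⟨k, rfl⟩ := hj
      rw [alpc_kerGen_cols h, smul_zero]
      exact Submodule.zero_mem _
    · exact Submodule.smul_mem _ _ (Submodule.subset_span ⟨⟨j, hj⟩, rfl⟩)
  · rw [Submodule.span_le]
    rintro _ ⟨j, rfl⟩
    exact alpc_kerGen_mem h j.1

/-- the generators outside `cols` are linearly independent -/
theorem alpc_kerGen_linearIndependent :
    LinearIndependent B (fun j : {j : n // j ∉ Set.range cols} =>
      alpcKerGen M rows cols j.1) := by
  classical
  rw [Fintype.linearIndependent_iff]
  intro a ha j
  have := congrFun ha j.1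
  rw [Finset.sum_apply, Finset.sum_eq_single j] at this
  · simpa [alpc_kerGen_apply_self j.2] using this
  · intro j' _ hj'
    rw [Pi.smul_apply, alpc_kerGen_apply_of_notMem j.2, if_neg, smul_zero]
    intro hjj
    exact hj' (Subtype.ext hjj.symm)
  · intro hj
    exact absurd (Finset.mem_univ j) hj

/-- **the basis of the kernel of a regular matrix** -/
noncomputable def alpcKerBasis (h : AlpcRegularAt M r rows cols) :
    Module.Basis {j : n // j ∉ Set.range cols} B (LinearMap.ker M.mulVecLin) :=
  Module.Basis.mk
    (v := fun j : {j : n // j ∉ Set.range cols} =>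
      (⟨alpcKerGen M rows cols j.1, alpc_kerGen_mem h j.1⟩ : LinearMap.ker M.mulVecLin))
    (by
      have := alpc_kerGen_linearIndependent (M := M) (rows := rows) (cols := cols)
      exact LinearIndependent.of_comp (LinearMap.ker M.mulVecLin).subtype this)
    (by
      intro v _
      have hv : (v : n → B) ∈ Submodule.span B (Set.range fun j : {j : n // j ∉ Set.range cols} =>
          alpcKerGen M rows cols j.1) := by
        rw [← alpc_ker_eq_span_kerGen h]; exact v.2
      have hmap : Submodule.map (LinearMap.ker M.mulVecLin).subtype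
          (Submodule.span B (Set.range fun j : {j : n // j ∉ Set.range cols} =>
            (⟨alpcKerGen M rows cols j.1, alpc_kerGen_mem h j.1⟩ : LinearMap.ker M.mulVecLin))) =
          Submodule.span B (Set.range fun j : {j : n // j ∉ Set.range cols} =>
            alpcKerGen M rows cols j.1) := by
        rw [Submodule.map_span]
        congr 1
        ext w
        simp only [Set.mem_image, Set.mem_range, Submodule.subtype_apply]
        constructor
        · rintro ⟨_, ⟨j, rfl⟩, rfl⟩
          exact ⟨j, rfl⟩
        · rintro ⟨j, rfl⟩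
          exact ⟨_, ⟨j, rfl⟩, rfl⟩
      rw [← hmap] at hv
      obtain ⟨w, hw, hwv⟩ := hv
      have : w = v := Subtype.ext hwv
      rwa [this] at hw)

theorem alpcKerBasis_apply (h : AlpcRegularAt M r rows cols)
    (j : {j : n // j ∉ Set.range cols}) :
    ((alpcKerBasis h j : LinearMap.ker M.mulVecLin) : n → B) = alpcKerGen M rows cols j.1 := by
  rw [alpcKerBasis, Module.Basis.mk_apply]

end KerGen

section Nakayama

variable {B : Type*} [CommRing B] {n : Type*} [Fintype n] [DecidableEq n]

/-- **Nakayama for a sum**: if the images of `P` and of the `c i` at a local specialisation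
`ρ` span everything, then every vector is `p + ∑ μ i • c i` with `p ∈ P`. -/
theorem alpc_exists_decomp {k : Type*} [Field k] (ρ : B →+* k)
    (hρ : ∀ b : B, ρ b ≠ 0 → IsUnit b) (P : Submodule B (n → B)) {g : ℕ} (c : Fin g → n → B)
    (h : Submodule.span k ((fun v : n → B => ρ ∘ v) '' (P : Set (n → B))) ⊔
      Submodule.span k (Set.range fun i => ρ ∘ c i) = ⊤) (v : n → B) :
    ∃ p ∈ P, ∃ μ : Fin g → B, v = p + ∑ i, μ i • c i := by
  have htop : P ⊔ Submodule.span B (Set.range c) = ⊤ := by
    apply alpc_eq_top_of_span_map_eq_top ρ hρ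
    rw [eq_top_iff, ← h]
    apply sup_le
    · apply Submodule.span_mono
      rintro _ ⟨p, hp, rfl⟩
      exact ⟨p, (le_sup_left : P ≤ P ⊔ Submodule.span B (Set.range c)) hp, rfl⟩
    · rw [Submodule.span_le]
      rintro _ ⟨i, rfl⟩
      refine Submodule.subset_span ⟨c i, ?_, rfl⟩
      exact (le_sup_right : Submodule.span B (Set.range c) ≤ P ⊔ Submodule.span B (Set.range c))
        (Submodule.subset_span ⟨i, rfl⟩)
  have hv : v ∈ P ⊔ Submodule.span B (Set.range c) := by rw [htop]; trivial
  obtain ⟨p, hp, w, hw, rfl⟩ := Submodule.mem_sup.mp hv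
  obtain ⟨μ, rfl⟩ := (Submodule.mem_span_range_iff_exists_fun B).mp hw
  exact ⟨p, hp, μ, rfl⟩

/-- uniqueness of the coefficients of the decomposition, from directness of the sum at a jointly
injective family of specialisations -/
theorem alpc_decomp_unique {ι : Type*} {K : ι → Type*} [∀ z, CommRing (K z)]
    (ψ : ∀ z, B →+* K z) (hinj : ∀ b : B, (∀ z, ψ z b = 0) → b = 0)
    (P : Submodule B (n → B)) {g : ℕ} (c : Fin g → n → B)
    (hdir : ∀ z, ∀ p ∈ P, ∀ ν : Fin g → K z,
      (ψ z ∘ p) + ∑ i, ν i • (ψ z ∘ c i) = 0 → ν = 0)
    {p p' : n → B} (hp : p ∈ P) (hp' : p' ∈ P) {μ μ' : Fin g → B}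
    (h : p + ∑ i, μ i • c i = p' + ∑ i, μ' i • c i) : μ = μ' := by
  funext i
  rw [← sub_eq_zero]
  apply hinj
  intro z
  have h1 : (p - p') + ∑ i, (μ i - μ' i) • c i = 0 := by
    have : (p - p') + ∑ i, (μ i - μ' i) • c i =
        (p + ∑ i, μ i • c i) - (p' + ∑ i, μ' i • c i) := by
      simp only [sub_smul, Finset.sum_sub_distrib]
      abel
    rw [this, h, sub_self]
  have h2 := hdir z (p - p') (P.sub_mem hp hp') (fun i => ψ z (μ i - μ' i)) (by
    have := congrArg (fun v : n → B => ψ z ∘ v) h1
    funext j
    have hj := congrFun this j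
    simp only [Function.comp_apply, Pi.add_apply, Finset.sum_apply, Pi.smul_apply, smul_eq_mul,
      map_add, map_sum, map_mul, Pi.zero_apply, map_zero] at hj ⊢
    exact hj)
  exact congrFun h2 i

end Nakayama

end Fermat.Agent.Alpha
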