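/-
ALPHA-P2 (helper6): constant-rank linear algebra, part (C3): the "cluster" layer.
`A` a local ring (think: a valuation ring of `Q̄` over `ℓ`), `Z` a finite set, `Bt` an
`A`-subalgebra of the ring of functions `Z → A`.  Two points of `Z` are in the same cluster if
no element of `Bt` separates them modulo the maximal ideal.  Then
* elements of `Bt` with unit values are units of `Bt` (`alpc_exists_inv`);
* the indicator function of every cluster lies in `Bt` (`alpc_indicator_mem`);
* a function which agrees on every cluster with some element of `Bt` lies in `Bt`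
  (`alpc_mem_of_forall_cluster`): **descent to clusters**;
* a subalgebra of functions on a single cluster is "local" with respect to the specialisation
  `residue ∘ eval z0` (`alpc_isUnit_of_residue_ne_zero`), which is what `alpc_regular_of_rank'`
  needs.
-/
import Fermat.Agent.Lib.Alpha.CRank.Local

set_option autoImplicit false
set_option linter.unusedSectionVars false

namespace Fermat.Agent.Alpha

section Units

variable {A : Type*} [CommRing A] {Z : Type*} (Bt : Subalgebra A (Z → A))

/-- partial inverses: if `b ∈ Bt` has unit values on a finite set `S` of points, some `g ∈ Bt`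
inverts `b` on `S`. -/
theorem alpc_exists_inv_on [DecidableEq Z] {b : Z → A} (hb : b ∈ Bt) (S : Finset Z)
    (hu : ∀ z ∈ S, IsUnit (b z)) : ∃ g ∈ Bt, ∀ z ∈ S, b z * g z = 1 := by
  induction S using Finset.induction_on with
  | empty => exact ⟨0, Bt.zero_mem, fun z hz => absurd hz (Finset.notMem_empty z)⟩
  | insert z0 S hz0 ih =>
    obtain ⟨g, hg, hgS⟩ := ih fun z hz => hu z (Finset.mem_insert_of_mem hz)
    obtain ⟨u, hu0⟩ := hu z0 (Finset.mem_insert_self z0 S)
    -- `g' = g + u⁻¹ (1 - b g)`, so that `1 - b g' = (1 - b g) (1 - b u⁻¹)`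
    refine ⟨g + algebraMap A (Z → A) (↑u⁻¹) * (1 - b * g), ?_, ?_⟩
    · exact Bt.add_mem hg (Bt.mul_mem (Bt.algebraMap_mem _)
        (Bt.sub_mem Bt.one_mem (Bt.mul_mem hb hg)))
    · intro z hz
      have key : b z * (g z + (↑u⁻¹ : A) * (1 - b z * g z)) =
          1 - (1 - b z * g z) * (1 - b z * ↑u⁻¹) := by ring
      simp only [Pi.add_apply, Pi.mul_apply, Pi.sub_apply, Pi.one_apply, Pi.algebraMap_apply,
        Algebra.algebraMap_self, RingHom.id_apply]
      rw [key]
      rcases Finset.mem_insert.mp hz with rfl | hzS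
      · rw [← hu0, Units.mul_inv, sub_self, mul_zero, sub_zero]
      · rw [hgS z hzS, sub_self, zero_mul, sub_zero]

/-- **units**: an element of `Bt` all of whose values are units is a unit of `Bt`. -/
theorem alpc_exists_inv [Fintype Z] [DecidableEq Z] {b : Z → A} (hb : b ∈ Bt)
    (hu : ∀ z, IsUnit (b z)) : ∃ g ∈ Bt, b * g = 1 := by
  obtain ⟨g, hg, h⟩ := alpc_exists_inv_on Bt hb Finset.univ fun z _ => hu z
  exact ⟨g, hg, funext fun z => h z (Finset.mem_univ z)⟩

theorem alpc_isUnit_of_forall_isUnit [Fintype Z] [DecidableEq Z] (β : Bt)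
    (hu : ∀ z, IsUnit ((β : Z → A) z)) : IsUnit β := by
  obtain ⟨g, hg, h⟩ := alpc_exists_inv Bt β.2 hu
  exact IsUnit.of_mul_eq_one (⟨g, hg⟩ : Bt) (Subtype.ext h)

end Units

section Clusters

variable {A : Type*} [CommRing A] [IsLocalRing A] {Z : Type*} (Bt : Subalgebra A (Z → A))

/-- two points are in the same cluster if no element of `Bt` separates them modulo the maximal
ideal -/
def alpcRel : Setoid Z where
  r z z' := ∀ b ∈ Bt, b z - b z' ∈ IsLocalRing.maximalIdeal A
  iseqv := by
    refine ⟨fun z b _ => by simp, fun h b hb => ?_, fun h h' b hb => ?_⟩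
    · have := (IsLocalRing.maximalIdeal A).neg_mem (h b hb)
      rwa [neg_sub] at this
    · have := (IsLocalRing.maximalIdeal A).add_mem (h b hb) (h' b hb)
      rwa [sub_add_sub_cancel] at this

theorem alpcRel_iff {z z' : Z} :
    (alpcRel Bt).r z z' ↔ ∀ b ∈ Bt, b z - b z' ∈ IsLocalRing.maximalIdeal A := Iff.rfl

/-- points in different clusters are separated by a unit -/
theorem alpc_exists_sep {z z' : Z} (h : ¬ (alpcRel Bt).r z z') :
    ∃ b ∈ Bt, IsUnit (b z - b z') := by
  rw [alpcRel_iff] at h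
  push Not at h
  obtain ⟨b, hb, hbz⟩ := h
  refine ⟨b, hb, ?_⟩
  by_contra hnu
  exact hbz ((IsLocalRing.mem_maximalIdeal _).mpr hnu)

/-- unit values propagate along a cluster -/
theorem alpc_isUnit_of_rel {z z' : Z} (h : (alpcRel Bt).r z z') {b : Z → A} (hb : b ∈ Bt)
    (hu : IsUnit (b z)) : IsUnit (b z') := by
  by_contra hnu
  have h1 : b z' ∈ IsLocalRing.maximalIdeal A := (IsLocalRing.mem_maximalIdeal _).mpr hnu
  have h2 := (IsLocalRing.maximalIdeal A).add_mem (h b hb) h1
  rw [sub_add_cancel] at h2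
  exact ((IsLocalRing.mem_maximalIdeal _).mp h2) hu

variable [Fintype Z] [DecidableEq Z]

/-- a function in `Bt` vanishing at `z'` and with unit values on the cluster of `z0`, for `z'`
outside this cluster -/
theorem alpc_exists_vanish {z0 z' : Z} (h : ¬ (alpcRel Bt).r z0 z') :
    ∃ f ∈ Bt, f z' = 0 ∧ ∀ z, (alpcRel Bt).r z0 z → IsUnit (f z) := by
  obtain ⟨b, hb, hu⟩ := alpc_exists_sep Bt h
  refine ⟨b - algebraMap A (Z → A) (b z'), Bt.sub_mem hb (Bt.algebraMap_mem _), by simp, ?_⟩
  intro z hz
  have hmem : b - algebraMap A (Z → A) (b z') ∈ Bt := Bt.sub_mem hb (Bt.algebraMap_mem _)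
  have hu0 : IsUnit ((b - algebraMap A (Z → A) (b z')) z0) := by simpa using hu
  exact alpc_isUnit_of_rel Bt hz hmem hu0

/-- **the indicator function of a cluster lies in `Bt`** -/
theorem alpc_indicator_mem (z0 : Z) :
    ∃ e ∈ Bt, (∀ z, (alpcRel Bt).r z0 z → e z = 1) ∧ ∀ z, ¬ (alpcRel Bt).r z0 z → e z = 0 := by
  classical
  -- `f` vanishes off the cluster and has unit values on it
  have hf : ∃ f ∈ Bt, (∀ z, ¬ (alpcRel Bt).r z0 z → f z = 0) ∧
      ∀ z, (alpcRel Bt).r z0 z → IsUnit (f z) := by
    have hfam : ∀ z' : {z' : Z // ¬ (alpcRel Bt).r z0 z'}, ∃ f ∈ Bt, f z'.1 = 0 ∧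
        ∀ z, (alpcRel Bt).r z0 z → IsUnit (f z) := fun z' => alpc_exists_vanish Bt z'.2
    choose F hF hF0 hFu using hfam
    refine ⟨∏ z', F z', Bt.prod_mem fun z' _ => hF z', ?_, ?_⟩
    · intro z hz
      rw [Finset.prod_apply]
      exact Finset.prod_eq_zero (Finset.mem_univ (⟨z, hz⟩ : {z' : Z // ¬ (alpcRel Bt).r z0 z'}))
        (hF0 _)
    · intro z hz
      rw [Finset.prod_apply]
      have : IsUnit (∏ z' : {z' : Z // ¬ (alpcRel Bt).r z0 z'}, F z' z) := by
        rw [IsUnit.prod_univ_iff]
        exact fun z' => hFu z' z hz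
      exact this
  obtain ⟨f, hf, hf0, hfu⟩ := hf
  obtain ⟨g, hg, hgS⟩ := alpc_exists_inv_on Bt hf
    (Finset.univ.filter fun z => (alpcRel Bt).r z0 z)
    (fun z hz => hfu z (Finset.mem_filter.mp hz).2)
  refine ⟨f * g, Bt.mul_mem hf hg, fun z hz => ?_, fun z hz => ?_⟩
  · rw [Pi.mul_apply]
    exact hgS z (Finset.mem_filter.mpr ⟨Finset.mem_univ z, hz⟩)
  · rw [Pi.mul_apply, hf0 z hz, zero_mul]

/-- **Descent to clusters**: a function which agrees, on each cluster, with some element of `Bt`
belongs to `Bt`. -/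
theorem alpc_mem_of_forall_cluster (ψ : Z → A)
    (h : ∀ z0 : Z, ∃ β ∈ Bt, ∀ z, (alpcRel Bt).r z0 z → β z = ψ z) : ψ ∈ Bt := by
  classical
  choose β hβ hβψ using h
  choose e he hez1 hez0 using alpc_indicator_mem Bt
  -- sum over the clusters
  have : ψ = ∑ q : Quotient (alpcRel Bt), e q.out * β q.out := by
    funext z
    rw [Finset.sum_apply, Finset.sum_eq_single (Quotient.mk (alpcRel Bt) z)]
    · have hr : (alpcRel Bt).r (Quotient.mk (alpcRel Bt) z).out z :=
        Quotient.exact (Quotient.out_eq _)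
      rw [Pi.mul_apply, hez1 _ z hr, one_mul, hβψ _ z hr]
    · intro q _ hq
      have hr : ¬ (alpcRel Bt).r q.out z := by
        intro hr
        apply hq
        rw [← Quotient.out_eq q]
        exact Quotient.sound hr
      rw [Pi.mul_apply, hez0 _ z hr, zero_mul]
    · intro hq
      exact absurd (Finset.mem_univ _) hq
  rw [this]
  exact Bt.sum_mem fun q _ => Bt.mul_mem (he _) (hβ _)

end Clusters

section SingleCluster

variable {A : Type*} [CommRing A] [IsLocalRing A] {c : Type*} [Fintype c] [DecidableEq c]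
  (Bc : Subalgebra A (c → A))

/-- the specialisation of `Bc` at the closed point: `residue ∘ eval z0` -/
noncomputable def alpcRho (z0 : c) : Bc →+* IsLocalRing.ResidueField A :=
  (IsLocalRing.residue A).comp ((Pi.evalRingHom (fun _ : c => A) z0).comp Bc.val.toRingHom)

theorem alpcRho_apply (z0 : c) (β : Bc) :
    alpcRho Bc z0 β = IsLocalRing.residue A ((β : c → A) z0) := rfl

/-- the specialisation of `Bc` at the point `z` -/
def alpcEv (z : c) : Bc →+* A :=
  (Pi.evalRingHom (fun _ : c => A) z).comp Bc.val.toRingHom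

theorem alpcEv_apply (z : c) (β : Bc) : alpcEv Bc z β = (β : c → A) z := rfl

theorem alpcEv_jointly_injective (β : Bc) (h : ∀ z, alpcEv Bc z β = 0) : β = 0 :=
  Subtype.ext (funext h)

/-- **a function algebra on a single cluster is local** with respect to `alpcRho` -/
theorem alpc_isUnit_of_residue_ne_zero
    (hclu : ∀ β ∈ Bc, ∀ z z' : c, β z - β z' ∈ IsLocalRing.maximalIdeal A) (z0 : c) (β : Bc)
    (h : alpcRho Bc z0 β ≠ 0) : IsUnit β := by
  apply alpc_isUnit_of_forall_isUnit
  intro z
  have h0 : IsUnit ((β : c → A) z0) := by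
    by_contra hnu
    exact h ((IsLocalRing.residue_eq_zero_iff _).mpr ((IsLocalRing.mem_maximalIdeal _).mpr hnu))
  by_contra hnu
  have h1 : (β : c → A) z ∈ IsLocalRing.maximalIdeal A := (IsLocalRing.mem_maximalIdeal _).mpr hnu
  have h2 := (IsLocalRing.maximalIdeal A).add_mem (hclu β β.2 z0 z) h1
  rw [sub_add_cancel] at h2
  exact ((IsLocalRing.mem_maximalIdeal _).mp h2) h0

end SingleCluster

end Fermat.Agent.Alpha
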