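/-
ALPHA-P2 (helper6): the cluster layer for a valuation subring `𝒱` of a field `K` and the
`𝒱`-algebra `B̃ = Algebra.adjoin 𝒱 (range m)` generated by a family `m : ι → Z → K` of `𝒱`-valued
functions on a finite set `Z` (the shape used by the KEY lemma of ALPHA).

* `alpcSame 𝒱 m z z'` : `z, z'` are in the same cluster (`m i z ≡ m i z'` modulo the maximal ideal,
  for all generators `m i`);
* `alpcT 𝒱 m hm z0 : Subalgebra 𝒱 (cluster of z0 → 𝒱)` : the local algebra of the cluster, with its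
  closed point `alpcRho (alpcT ..) ⟨z0, _⟩` and its points `alpcEv (alpcT ..) z`;
* `alpc_T_isUnit` : it is local; `alpc_T_lift` : its elements lift to `B̃`;
* `alpc_mem_adjoin_of_local` : **a function `ψ : Z → K` which on every cluster agrees with an
  element of the local algebra of the cluster belongs to `B̃`.**
-/
import Fermat.Agent.Lib.Alpha.CRank.Cluster

set_option autoImplicit false
set_option linter.unusedSectionVars false

namespace Fermat.Agent.Alpha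

section Valued

variable {K : Type*} [Field K] (𝒱 : ValuationSubring K) {Z : Type*} {ι : Type*}
  (m : ι → Z → K)

/-- `z` and `z'` are not separated, modulo the maximal ideal, by the generators `m i` -/
def alpcSame (z z' : Z) : Prop := ∀ i, 𝒱.valuation (m i z - m i z') < 1

theorem alpcSame_refl (z : Z) : alpcSame 𝒱 m z z := fun i => by simp

theorem alpcSame_symm {z z' : Z} (h : alpcSame 𝒱 m z z') : alpcSame 𝒱 m z' z := fun i => by
  rw [← neg_sub, Valuation.map_neg]; exact h i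

theorem alpcSame_trans {z z' z'' : Z} (h : alpcSame 𝒱 m z z') (h' : alpcSame 𝒱 m z' z'') :
    alpcSame 𝒱 m z z'' := fun i => by
  have := 𝒱.valuation.map_add_lt (h i) (h' i)
  rwa [sub_add_sub_cancel] at this

variable (hm : ∀ i z, m i z ∈ 𝒱)

/-- the generators, as `𝒱`-valued functions -/
def alpcGen (i : ι) (z : Z) : 𝒱 := ⟨m i z, hm i z⟩

/-- the inclusion of `𝒱`-valued functions into `K`-valued functions -/
def alpcCoe (𝒱 : ValuationSubring K) (Z : Type*) : (Z → 𝒱) →ₐ[𝒱] (Z → K) :=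
  AlgHom.compLeft (Algebra.ofId 𝒱 K) Z

@[simp] theorem alpcCoe_apply (f : Z → 𝒱) (z : Z) : alpcCoe 𝒱 Z f z = (f z : K) := rfl

/-- the `𝒱`-valued form of `B̃` -/
def alpcBt : Subalgebra 𝒱 (Z → 𝒱) := Algebra.adjoin 𝒱 (Set.range (alpcGen 𝒱 m hm))

theorem alpc_map_Bt :
    (alpcBt 𝒱 m hm).map (alpcCoe 𝒱 Z) = Algebra.adjoin 𝒱 (Set.range m) := by
  rw [alpcBt, AlgHom.map_adjoin]
  congr 1
  ext f
  simp only [Set.mem_image, Set.mem_range]
  constructor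
  · rintro ⟨_, ⟨i, rfl⟩, rfl⟩
    exact ⟨i, rfl⟩
  · rintro ⟨i, rfl⟩
    exact ⟨_, ⟨i, rfl⟩, rfl⟩

include hm in
/-- every element of `B̃` is `𝒱`-valued -/
theorem alpc_adjoin_mem_valuationSubring {b : Z → K} (hb : b ∈ Algebra.adjoin 𝒱 (Set.range m))
    (z : Z) : b z ∈ 𝒱 := by
  rw [← alpc_map_Bt 𝒱 m hm] at hb
  obtain ⟨b', -, rfl⟩ := hb
  exact (b' z).2

/-- the cluster relation of `alpcBt` is `alpcSame` -/
theorem alpcRel_Bt_iff (z z' : Z) : (alpcRel (alpcBt 𝒱 m hm)).r z z' ↔ alpcSame 𝒱 m z z' := by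
  rw [alpcRel_iff]
  constructor
  · intro h i
    have := h (alpcGen 𝒱 m hm i) (Algebra.subset_adjoin ⟨i, rfl⟩)
    rw [ValuationSubring.valuation_lt_one_iff] at this
    simpa [alpcGen] using this
  · intro h b hb
    induction hb using Algebra.adjoin_induction with
    | mem b hb =>
      obtain ⟨i, rfl⟩ := hb
      rw [ValuationSubring.valuation_lt_one_iff]
      simpa [alpcGen] using h i
    | algebraMap a => simp
    | add b b' _ _ hb hb' =>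
      have := (IsLocalRing.maximalIdeal 𝒱).add_mem hb hb'
      simpa [add_sub_add_comm] using this
    | mul b b' _ _ hb hb' =>
      have h1 : (b * b') z - (b * b') z' = b z * (b' z - b' z') + (b z - b z') * b' z' := by
        simp only [Pi.mul_apply]; ring
      rw [h1]
      exact (IsLocalRing.maximalIdeal 𝒱).add_mem
        ((IsLocalRing.maximalIdeal 𝒱).mul_mem_left _ hb')
        ((IsLocalRing.maximalIdeal 𝒱).mul_mem_right _ hb)

variable [Fintype Z] [DecidableEq Z]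

include hm in
/-- **Descent to clusters** for `B̃ = Algebra.adjoin 𝒱 (range m)`. -/
theorem alpc_mem_adjoin_of_clusters (ψ : Z → K)
    (h : ∀ z0 : Z, ∃ β ∈ Algebra.adjoin 𝒱 (Set.range m),
      ∀ z, alpcSame 𝒱 m z0 z → β z = ψ z) : ψ ∈ Algebra.adjoin 𝒱 (Set.range m) := by
  -- `ψ` is `𝒱`-valued
  have hψ : ∀ z, ψ z ∈ 𝒱 := by
    intro z
    obtain ⟨β, hβ, hβψ⟩ := h z
    rw [← hβψ z (alpcSame_refl 𝒱 m z)]
    exact alpc_adjoin_mem_valuationSubring 𝒱 m hm hβ z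
  set ψ' : Z → 𝒱 := fun z => ⟨ψ z, hψ z⟩ with hψ'
  have hmem : ψ' ∈ alpcBt 𝒱 m hm := by
    apply alpc_mem_of_forall_cluster
    intro z0
    obtain ⟨β, hβ, hβψ⟩ := h z0
    rw [← alpc_map_Bt 𝒱 m hm] at hβ
    obtain ⟨β', hβ', rfl⟩ := hβ
    refine ⟨β', hβ', fun z hz => ?_⟩
    apply Subtype.ext
    have := hβψ z ((alpcRel_Bt_iff 𝒱 m hm z0 z).mp hz)
    simpa [hψ'] using this
  rw [← alpc_map_Bt 𝒱 m hm]
  exact ⟨ψ', hmem, rfl⟩

/-- the cluster of `z0`, as a type -/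
abbrev AlpcCl (z0 : Z) : Type _ := {z : Z // alpcSame 𝒱 m z0 z}

/-- restriction of `𝒱`-valued functions to the cluster of `z0` -/
def alpcRes (z0 : Z) : (Z → 𝒱) →ₐ[𝒱] (AlpcCl 𝒱 m z0 → 𝒱) :=
  AlgHom.pi fun z => Pi.evalAlgHom 𝒱 (fun _ : Z => 𝒱) z.1

@[simp] theorem alpcRes_apply (z0 : Z) (f : Z → 𝒱) (z : AlpcCl 𝒱 m z0) :
    alpcRes 𝒱 m z0 f z = f z.1 := rfl

/-- **the local algebra of the cluster of `z0`** -/
def alpcT (z0 : Z) : Subalgebra 𝒱 (AlpcCl 𝒱 m z0 → 𝒱) :=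
  (alpcBt 𝒱 m hm).map (alpcRes 𝒱 m z0)

theorem alpcT_eq_adjoin (z0 : Z) :
    alpcT 𝒱 m hm z0 = Algebra.adjoin 𝒱
      (Set.range fun i => fun z : AlpcCl 𝒱 m z0 => alpcGen 𝒱 m hm i z.1) := by
  rw [alpcT, alpcBt, AlgHom.map_adjoin]
  congr 1
  ext f
  simp only [Set.mem_image, Set.mem_range]
  constructor
  · rintro ⟨_, ⟨i, rfl⟩, rfl⟩
    exact ⟨i, rfl⟩
  · rintro ⟨i, rfl⟩
    exact ⟨_, ⟨i, rfl⟩, rfl⟩

/-- the generators restricted to the cluster lie in the local algebra -/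
theorem alpc_gen_mem_T (z0 : Z) (i : ι) :
    (fun z : AlpcCl 𝒱 m z0 => alpcGen 𝒱 m hm i z.1) ∈ alpcT 𝒱 m hm z0 := by
  rw [alpcT_eq_adjoin]
  exact Algebra.subset_adjoin ⟨i, rfl⟩

/-- the local algebra of a cluster has a single cluster -/
theorem alpc_T_single (z0 : Z) : ∀ β ∈ alpcT 𝒱 m hm z0, ∀ z z' : AlpcCl 𝒱 m z0,
    β z - β z' ∈ IsLocalRing.maximalIdeal 𝒱 := by
  rintro _ ⟨b, hb, rfl⟩ z z'
  have hzz' : alpcSame 𝒱 m z.1 z'.1 := alpcSame_trans 𝒱 m (alpcSame_symm 𝒱 m z.2) z'.2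
  exact (alpcRel_Bt_iff 𝒱 m hm z.1 z'.1).mpr hzz' b hb

/-- **the local algebra of a cluster is local**: an element whose value at `z0` is a unit of `𝒱`
is a unit. -/
theorem alpc_T_isUnit (z0 : Z) (β : alpcT 𝒱 m hm z0)
    (h : alpcRho (alpcT 𝒱 m hm z0) ⟨z0, alpcSame_refl 𝒱 m z0⟩ β ≠ 0) : IsUnit β := by
  classical
  have : Fintype (AlpcCl 𝒱 m z0) := Fintype.ofFinite _
  exact alpc_isUnit_of_residue_ne_zero _ (alpc_T_single 𝒱 m hm z0) _ β h

/-- elements of the local algebra of a cluster lift to `B̃` -/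
theorem alpc_T_lift (z0 : Z) {τ : AlpcCl 𝒱 m z0 → 𝒱} (hτ : τ ∈ alpcT 𝒱 m hm z0) :
    ∃ β ∈ Algebra.adjoin 𝒱 (Set.range m), ∀ z : AlpcCl 𝒱 m z0, β z.1 = (τ z : K) := by
  obtain ⟨b, hb, rfl⟩ := hτ
  refine ⟨alpcCoe 𝒱 Z b, ?_, fun z => rfl⟩
  rw [← alpc_map_Bt 𝒱 m hm]
  exact ⟨b, hb, rfl⟩

include hm in
/-- **Descent to the local algebras of the clusters.** -/
theorem alpc_mem_adjoin_of_local (ψ : Z → K)
    (h : ∀ z0 : Z, ∃ τ ∈ alpcT 𝒱 m hm z0, ∀ z : AlpcCl 𝒱 m z0, (τ z : K) = ψ z.1) :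
    ψ ∈ Algebra.adjoin 𝒱 (Set.range m) := by
  apply alpc_mem_adjoin_of_clusters 𝒱 m hm
  intro z0
  obtain ⟨τ, hτ, hτψ⟩ := h z0
  obtain ⟨β, hβ, hβτ⟩ := alpc_T_lift 𝒱 m hm z0 hτ
  exact ⟨β, hβ, fun z hz => by rw [hβτ ⟨z, hz⟩, hτψ ⟨z, hz⟩]⟩

end Valued

end Fermat.Agent.Alpha
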